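import Fermat.Agent.S55.BLocal.Isometry

/-!
# S55, layer B-local: the image of the local Galois group is the decomposition group

`range (localGaloisToGlobal q) = (padicPlace q).decompositionSubgroup ℚ`.
-/

set_option autoImplicit false
set_option linter.style.haveILetI false

open scoped Pointwise

namespace Fermat.Agent.S55.BLocal

variable (q : ℕ) [Fact q.Prime]

/-- An element of the decomposition group fixes every algebraic number which is `q`-adically
rational. -/
theorem apply_eq_of_padicEmbedding_mem_range (σ : GQ)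
    (hσ : σ ∈ (padicPlace q).decompositionSubgroup ℚ) (x : Qb) (a : ℚ_[q])
    (hx : padicEmbedding q x = algebraMap ℚ_[q] (PadicAlgCl q) a) : σ x = x := by
  rw [← sub_eq_zero, ← qnorm_eq_zero_iff q]
  refine le_antisymm ?_ (qnorm_nonneg q _)
  refine le_of_forall_pos_le_add fun ε hε => ?_
  rw [zero_add]
  obtain ⟨r, hr⟩ := Padic.rat_dense q a hε
  have h1 : qnorm q (x - (r : Qb)) < ε := by
    unfold qnorm
    rw [map_sub, hx, map_ratCast]
    have h2 : ((r : ℚ) : PadicAlgCl q) = algebraMap ℚ_[q] (PadicAlgCl q) (r : ℚ_[q]) := by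
      rw [map_ratCast]
    rw [h2, ← map_sub]
    have h3 := PadicAlgCl.norm_extends q (a - (r : ℚ_[q]))
    rw [h3]
    exact hr
  have h4 : qnorm q (σ (x - (r : Qb))) = qnorm q (x - (r : Qb)) :=
    qnorm_eq_of_mem_decomposition q σ hσ _
  have h5 : σ x - x = σ (x - (r : Qb)) - (x - (r : Qb)) := by
    rw [map_sub, map_ratCast]
    ring
  rw [h5]
  refine (qnorm_sub_le_max q _ _).trans ?_
  rw [h4, max_self]
  exact h1.le

/-- `PadicAlgCl q / ℚ_q` is Galois. -/
theorem isGalois_padicAlgCl : IsGalois ℚ_[q] (PadicAlgCl q) := by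
  haveI : IsAlgClosure ℚ_[q] (PadicAlgCl q) := ⟨inferInstance, inferInstance⟩
  haveI : Normal ℚ_[q] (PadicAlgCl q) := IsAlgClosure.normal ℚ_[q] (PadicAlgCl q)
  exact isGalois_iff.mpr ⟨inferInstance, inferInstance⟩

/-- An algebraic number fixed by the image of the local Galois group is `q`-adically rational. -/
theorem padicEmbedding_mem_range_of_fixed (x : Qb)
    (hx : ∀ τ : PadicAlgCl q ≃ₐ[ℚ_[q]] PadicAlgCl q, localGaloisToGlobal q τ x = x) :
    ∃ a : ℚ_[q], padicEmbedding q x = algebraMap ℚ_[q] (PadicAlgCl q) a := by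
  haveI := isGalois_padicAlgCl q
  have hfix : padicEmbedding q x ∈ IntermediateField.fixedField
      (⊤ : Subgroup (PadicAlgCl q ≃ₐ[ℚ_[q]] PadicAlgCl q)) := by
    rintro ⟨τ, -⟩
    show τ (padicEmbedding q x) = padicEmbedding q x
    rw [← padicEmbedding_localGaloisToGlobal, hx τ]
  rw [InfiniteGalois.fixedField_bot, IntermediateField.mem_bot] at hfix
  obtain ⟨a, ha⟩ := hfix
  exact ⟨a, ha.symm⟩

/-- The restriction map from the local to the global Galois group is continuous. -/
theorem continuous_localGaloisToGlobal : Continuous (localGaloisToGlobal q) := by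
  haveI : Algebra.IsAlgebraic ℚ Qb := AlgebraicClosure.isAlgebraic ℚ
  apply continuous_of_continuousAt_one
  rw [ContinuousAt, map_one]
  intro U hU
  rw [krullTopology_mem_nhds_one_iff] at hU
  obtain ⟨E, hEfin, hEU⟩ := hU
  haveI := hEfin
  rw [Filter.mem_map, krullTopology_mem_nhds_one_iff]
  -- a primitive element of `E`
  obtain ⟨α, hα⟩ := Field.exists_primitive_element ℚ E
  refine ⟨IntermediateField.adjoin ℚ_[q] {padicEmbedding q (α : Qb)},
    IntermediateField.adjoin.finiteDimensional (Algebra.IsIntegral.isIntegral _), ?_⟩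
  intro τ hτ
  apply hEU
  show localGaloisToGlobal q τ ∈ E.fixingSubgroup
  rw [IntermediateField.mem_fixingSubgroup_iff]
  have hτα : τ (padicEmbedding q (α : Qb)) = padicEmbedding q (α : Qb) :=
    (IntermediateField.mem_fixingSubgroup_iff _ τ).mp hτ _
      (IntermediateField.subset_adjoin ℚ_[q] _ (Set.mem_singleton _))
  have hα' : localGaloisToGlobal q τ (α : Qb) = α := by
    apply (padicEmbedding q).toRingHom.injective
    show padicEmbedding q (localGaloisToGlobal q τ (α : Qb)) = padicEmbedding q (α : Qb)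
    rw [padicEmbedding_localGaloisToGlobal, hτα]
  -- two algebra maps `E → ℚ̄` agreeing on the generator
  have hadj : Algebra.adjoin ℚ {α} = (⊤ : Subalgebra ℚ E) := by
    rw [← IntermediateField.adjoin_simple_toSubalgebra_of_isAlgebraic
      (Algebra.IsAlgebraic.isAlgebraic α), hα]
    rfl
  have hext : ((localGaloisToGlobal q τ : Qb →ₐ[ℚ] Qb).comp E.val) = E.val := by
    apply AlgHom.ext_of_adjoin_eq_top hadj
    intro y hy
    rw [Set.mem_singleton_iff] at hy
    subst hy
    exact hα'
  intro x hxE
  exact congrArg (fun f : E →ₐ[ℚ] Qb => f ⟨x, hxE⟩) hext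

/-- **The image of the local Galois group at `q` is the decomposition group of the `q`-adic
place.** -/
theorem range_localGaloisToGlobal :
    (localGaloisToGlobal q).range = (padicPlace q).decompositionSubgroup ℚ := by
  haveI : Algebra.IsAlgebraic ℚ Qb := AlgebraicClosure.isAlgebraic ℚ
  haveI : IsAlgClosure ℚ Qb := ⟨inferInstance, inferInstance⟩
  haveI : Normal ℚ Qb := IsAlgClosure.normal ℚ Qb
  haveI : IsGalois ℚ Qb := isGalois_iff.mpr ⟨inferInstance, inferInstance⟩
  haveI := isGalois_padicAlgCl q
  apply le_antisymm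
  · rintro _ ⟨τ, rfl⟩
    exact localGaloisToGlobal_mem_decompositionSubgroup q τ
  · intro σ hσ
    have hclosed : IsClosed ((localGaloisToGlobal q).range : Set GQ) := by
      have : ((localGaloisToGlobal q).range : Set GQ) = Set.range (localGaloisToGlobal q) := rfl
      rw [this]
      exact (isCompact_range (continuous_localGaloisToGlobal q)).isClosed
    have hH := InfiniteGalois.fixingSubgroup_fixedField
      (⟨(localGaloisToGlobal q).range, hclosed⟩ : ClosedSubgroup GQ)
    have hσH : σ ∈ (IntermediateField.fixedField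
        ((⟨(localGaloisToGlobal q).range, hclosed⟩ : ClosedSubgroup GQ) : Subgroup GQ)
          ).fixingSubgroup := by
      rw [IntermediateField.mem_fixingSubgroup_iff]
      intro x hx
      obtain ⟨a, ha⟩ := padicEmbedding_mem_range_of_fixed q x (fun τ => hx ⟨_, ⟨τ, rfl⟩⟩)
      exact apply_eq_of_padicEmbedding_mem_range q σ hσ x a ha
    rw [hH] at hσH
    exact hσH

end Fermat.Agent.S55.BLocal
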