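import Fermat.Prelude.Def_ExtEndgame_ProductionDatum
import Fermat.Agent.S55.BLocal.Range

/-!
# S55, layer B-local: Prelude wrappers

The image of `primeLocalToGlobal q` is the decomposition group of `primeLocalPlace q`; a cochain
condition on the local group is therefore a condition on the decomposition group.
-/

set_option autoImplicit false
set_option linter.style.haveILetI false

open scoped Pointwise
open ExtCitation

namespace Fermat.Agent.S55.BLocal

/-- The image of the local Galois group at `q` in `Gal(ℚ̄/ℚ)` is the decomposition group of the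
`q`-adic place. -/
theorem range_primeLocalToGlobal (q : Nat.Primes) :
    (primeLocalToGlobal q).range = (primeLocalPlace q).decompositionSubgroup ℚ := by
  haveI : Fact (q : ℕ).Prime := ⟨q.2⟩
  exact range_localGaloisToGlobal (q : ℕ)

theorem primeLocalToGlobal_mem (q : Nat.Primes) (τ : primeLocalGaloisGroup q) :
    primeLocalToGlobal q τ ∈ (primeLocalPlace q).decompositionSubgroup ℚ := by
  rw [← range_primeLocalToGlobal]
  exact ⟨τ, rfl⟩

theorem exists_primeLocalToGlobal_eq (q : Nat.Primes) (σ : GQ)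
    (hσ : σ ∈ (primeLocalPlace q).decompositionSubgroup ℚ) :
    ∃ τ : primeLocalGaloisGroup q, primeLocalToGlobal q τ = σ := by
  rw [← range_primeLocalToGlobal] at hσ
  exact hσ

/-- The `q`-adic place lies over `q`. -/
theorem primeLocalPlace_liesOver (q : Nat.Primes) : (primeLocalPlace q).LiesOverPrime (q : ℕ) := by
  haveI : Fact (q : ℕ).Prime := ⟨q.2⟩
  show ((q : ℕ) : Qb) ∈ (padicPlace (q : ℕ)).nonunits
  rw [ValuationSubring.mem_nonunits_iff_exists_mem_maximalIdeal]
  have hq1 : (1 : ℝ) < (q : ℕ) := by exact_mod_cast q.2.one_lt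
  have hlt : qnorm (q : ℕ) ((q : ℕ) : Qb) < 1 := by
    rw [qnorm_natCast_self]
    exact inv_lt_one_of_one_lt₀ hq1
  have hmem : ((q : ℕ) : Qb) ∈ padicPlace (q : ℕ) :=
    (mem_padicPlace_iff_qnorm (q : ℕ) _).mpr hlt.le
  refine ⟨hmem, ?_⟩
  rw [IsLocalRing.mem_maximalIdeal, mem_nonunits_iff]
  intro hu
  obtain ⟨u, hu⟩ := hu
  have hinv : (((u⁻¹ : (padicPlace (q : ℕ))ˣ) : padicPlace (q : ℕ)) : Qb) * ((q : ℕ) : Qb) = 1 := by
    have h1 : ((u⁻¹ : (padicPlace (q : ℕ))ˣ) : padicPlace (q : ℕ)) * (u : padicPlace (q : ℕ)) = 1 :=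
      Units.inv_mul u
    rw [hu] at h1
    exact congrArg Subtype.val h1
  have h2 := congrArg (qnorm (q : ℕ)) hinv
  rw [qnorm_mul] at h2
  have h3 : qnorm (q : ℕ) (1 : Qb) = 1 := by
    unfold qnorm
    rw [map_one, norm_one]
  rw [h3] at h2
  have h4 : qnorm (q : ℕ) (((u⁻¹ : (padicPlace (q : ℕ))ˣ) : padicPlace (q : ℕ)) : Qb) ≤ 1 :=
    (mem_padicPlace_iff_qnorm (q : ℕ) _).mp (Subtype.property _)
  have h5 := qnorm_nonneg (q : ℕ) ((q : ℕ) : Qb)
  nlinarith

end Fermat.Agent.S55.BLocal
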