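import Mathlib
import Fermat.Prelude.Def_GaloisRep_CompletionBridge

/-!
# S55, layer B-local: the decomposition group of the `q`-adic place acts by isometries

`A = padicPlace q` is the valuation subring of `ℚ̄` cut out by the `q`-adic norm through the fixed
embedding `padicEmbedding q : ℚ̄ → PadicAlgCl q`.  Every `σ` in the decomposition group of `A`
preserves the `q`-adic norm.
-/

set_option autoImplicit false

open scoped Pointwise

namespace Fermat.Agent.S55.BLocal

/-- `ℚ̄`. -/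
abbrev Qb : Type := AlgebraicClosure ℚ

/-- The absolute Galois group of `ℚ`. -/
abbrev GQ : Type := Qb ≃ₐ[ℚ] Qb

variable (q : ℕ) [Fact q.Prime]

/-- The `q`-adic norm on `ℚ̄`. -/
noncomputable def qnorm (x : Qb) : ℝ := ‖padicEmbedding q x‖

theorem qnorm_nonneg (x : Qb) : 0 ≤ qnorm q x := norm_nonneg _

theorem qnorm_mul (x y : Qb) : qnorm q (x * y) = qnorm q x * qnorm q y := by
  unfold qnorm
  rw [map_mul, norm_mul]

theorem qnorm_pow (x : Qb) (n : ℕ) : qnorm q (x ^ n) = qnorm q x ^ n := by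
  unfold qnorm
  rw [map_pow, norm_pow]

theorem qnorm_zpow (x : Qb) (n : ℤ) : qnorm q (x ^ n) = qnorm q x ^ n := by
  unfold qnorm
  rw [map_zpow₀, norm_zpow]

theorem qnorm_eq_zero_iff (x : Qb) : qnorm q x = 0 ↔ x = 0 := by
  unfold qnorm
  rw [norm_eq_zero]
  exact map_eq_zero_iff _ (padicEmbedding q).toRingHom.injective

theorem qnorm_natCast_self : qnorm q (q : Qb) = (q : ℝ)⁻¹ := by
  unfold qnorm
  rw [map_natCast]
  have h : ((q : ℕ) : PadicAlgCl q) = algebraMap ℚ_[q] (PadicAlgCl q) (q : ℚ_[q]) := by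
    rw [map_natCast]
  rw [h]
  have := PadicAlgCl.norm_extends q (q : ℚ_[q])
  rw [this, Padic.norm_p]

theorem qnorm_sub_le_max (x y : Qb) : qnorm q (x - y) ≤ max (qnorm q x) (qnorm q y) := by
  unfold qnorm
  rw [map_sub, sub_eq_add_neg]
  have := PadicAlgCl.isNonarchimedean q (padicEmbedding q x) (-(padicEmbedding q y))
  rwa [norm_neg] at this

theorem mem_padicPlace_iff_qnorm (x : Qb) : x ∈ padicPlace q ↔ qnorm q x ≤ 1 := by
  rw [mem_padicPlace_iff]
  unfold qnorm
  exact Iff.rfl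

/-- Comparison of the `q`-adic norm with its transport by an automorphism preserving the unit
ball in one direction. -/
theorem qnorm_le_of_forall (σ : GQ)
    (h : ∀ y : Qb, qnorm q y ≤ 1 → qnorm q (σ y) ≤ 1) (x : Qb) :
    qnorm q (σ x) ≤ qnorm q x := by
  by_contra hlt
  rw [not_le] at hlt
  have hq1 : (1 : ℝ) < q := by exact_mod_cast (Fact.out : q.Prime).one_lt
  have hq0 : (0 : ℝ) < q := by linarith
  have hx : x ≠ 0 := by
    rintro rfl
    rw [map_zero] at hlt
    exact lt_irrefl _ hlt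
  have hs : 0 < qnorm q x :=
    lt_of_le_of_ne (qnorm_nonneg q x) (fun h0 => hx ((qnorm_eq_zero_iff q x).mp h0.symm))
  have ht : 0 < qnorm q (σ x) := hs.trans hlt
  obtain ⟨n, hn⟩ : ∃ n : ℕ, (q : ℝ) < (qnorm q (σ x) / qnorm q x) ^ n :=
    pow_unbounded_of_one_lt (q : ℝ) ((one_lt_div hs).mpr hlt)
  obtain ⟨k, hk1, hk2⟩ := exists_mem_Ioc_zpow (pow_pos hs n) hq1
  have hqk : (0 : ℝ) < (q : ℝ) ^ (k + 1) := zpow_pos hq0 _
  -- the test element
  have hy : qnorm q (x ^ n * (q : Qb) ^ (k + 1)) ≤ 1 := by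
    rw [qnorm_mul, qnorm_pow, qnorm_zpow, qnorm_natCast_self, inv_zpow]
    rw [← div_eq_mul_inv, div_le_one hqk]
    exact hk2
  have hσy := h _ hy
  rw [map_mul, map_pow, map_zpow₀, map_natCast, qnorm_mul, qnorm_pow, qnorm_zpow,
    qnorm_natCast_self, inv_zpow, ← div_eq_mul_inv, div_le_one hqk] at hσy
  -- contradiction
  have h1 : (q : ℝ) * qnorm q x ^ n < qnorm q (σ x) ^ n := by
    rw [div_pow, lt_div_iff₀ (pow_pos hs n)] at hn
    exact hn
  have h2 : (q : ℝ) ^ (k + 1) = (q : ℝ) * (q : ℝ) ^ k := by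
    rw [zpow_add₀ hq0.ne', zpow_one, mul_comm]
  have h3 : (q : ℝ) * (q : ℝ) ^ k < (q : ℝ) * qnorm q x ^ n :=
    mul_lt_mul_of_pos_left hk1 hq0
  linarith

/-- Elements of the decomposition group of the `q`-adic place preserve the unit ball. -/
theorem qnorm_le_one_of_mem_decomposition (σ : GQ)
    (hσ : σ ∈ (padicPlace q).decompositionSubgroup ℚ) (y : Qb) (hy : qnorm q y ≤ 1) :
    qnorm q (σ y) ≤ 1 := by
  rw [← mem_padicPlace_iff_qnorm] at hy ⊢
  have h1 : σ • padicPlace q = padicPlace q := hσ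
  rw [← h1]
  exact ValuationSubring.smul_mem_pointwise_smul σ y (padicPlace q) hy

/-- **Isometry.**  The decomposition group of the `q`-adic place of `ℚ̄` preserves the `q`-adic
norm. -/
theorem qnorm_eq_of_mem_decomposition (σ : GQ)
    (hσ : σ ∈ (padicPlace q).decompositionSubgroup ℚ) (x : Qb) :
    qnorm q (σ x) = qnorm q x := by
  apply le_antisymm
  · exact qnorm_le_of_forall q σ (qnorm_le_one_of_mem_decomposition q σ hσ) x
  · have hinv : σ⁻¹ ∈ (padicPlace q).decompositionSubgroup ℚ := Subgroup.inv_mem _ hσ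
    have := qnorm_le_of_forall q σ⁻¹ (qnorm_le_one_of_mem_decomposition q σ⁻¹ hinv) (σ x)
    have h2 : σ⁻¹ (σ x) = x := by
      show (σ⁻¹ * σ) x = x
      rw [inv_mul_cancel]
      rfl
    rwa [h2] at this

end Fermat.Agent.S55.BLocal
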